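import Fermat.Agent.S59.G4.H109.Res2

/-!
# Row S58, leaf HRES, part 2 (helper273): residual absolute irreducibility from Frobenius data

Generic form of `Fermat.Agent.S59.G4.H109.resStatement2` (no Hecke algebra): if the Frobenius
characteristic polynomials of `ρ` (over a local ring `A`) reduce to those of an absolutely
irreducible `ρ̄` (over `k`, `ι : k → A/𝔪`) at all primes outside a finite set, then `ρ.residual`
is absolutely irreducible.

* `charpoly_residual_eq_of_frob` : Chebotarev step, `charpoly (ρ.residual g) = ι (charpoly (ρ̄ g))`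
  for every `g`.
* `residual_absIrr_of_charpoly`  : Burnside/Gram step.
* `residual_absIrr_of_frob`      : the combination.
-/

set_option autoImplicit false

open Polynomial IsLocalRing
open scoped TensorProduct

namespace Fermat.Agent.S58.H273

open Fermat.Agent.S59.G4.H109

/-- **Chebotarev step.**  If the Frobenius characteristic polynomials of `ρ` reduce to those of
`ρ̄` outside a finite set `S` of primes, then the characteristic polynomials of `ρ.residual` are
the images of those of `ρ̄` at every element of `Gal(ℚ̄/ℚ)`. -/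
theorem charpoly_residual_eq_of_frob {k : Type} [Field k] (ρbar : ResidualGaloisRep k)
    {A : Type} [CommRing A] [IsLocalRing A] (ι : k →+* ResidueField A)
    (ρ : GaloisRepAdic A) (S : Finset ℕ)
    (h : ∀ ℓ : ℕ, ℓ.Prime → ℓ ∉ S →
      ∀ B : ValuationSubring (AlgebraicClosure ℚ), B.LiesOverPrime ℓ →
        ∀ σ : AlgebraicClosure ℚ ≃ₐ[ℚ] AlgebraicClosure ℚ, B.IsFrobeniusAt σ ℓ →
          (LinearMap.charpoly (ρ.ρ σ)).map (residue A)
            = (LinearMap.charpoly (ρbar.ρ σ)).map ι)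
    (g : AlgebraicClosure ℚ ≃ₐ[ℚ] AlgebraicClosure ℚ) :
    LinearMap.charpoly (ρ.residual.ρ g) = (LinearMap.charpoly (ρbar.ρ g)).map ι := by
  obtain ⟨L₁, hL₁, h₁⟩ := ρ.residual.factorsThroughFiniteLevel
  obtain ⟨L₂, hL₂, h₂⟩ := ρbar.factorsThroughFiniteLevel
  have := hL₁
  have := hL₂
  have hE : FiniteDimensional ℚ ↥(L₁ ⊔ L₂) := IntermediateField.finiteDimensional_sup L₁ L₂
  obtain ⟨ℓ, B, τ, hℓ, hℓS, hB, hτ, -, hτg⟩ :=
    Fermat.Agent.Lib.Cheb.chebotarev (L₁ ⊔ L₂) hE g S
  have hfix : ∀ x ∈ L₁ ⊔ L₂, (g⁻¹ * τ) x = x := by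
    intro x hx
    rw [AlgEquiv.mul_apply, hτg x hx]
    exact g.symm_apply_apply x
  have e1 : ρ.residual.ρ τ = ρ.residual.ρ g := by
    have h := h₁ (g⁻¹ * τ) (fun x hx => hfix x ((le_sup_left : L₁ ≤ L₁ ⊔ L₂) hx))
    have h' : ρ.residual.ρ g * ρ.residual.ρ (g⁻¹ * τ) = ρ.residual.ρ g := by rw [h, mul_one]
    rw [← map_mul, mul_inv_cancel_left] at h'
    exact h'
  have e2 : ρbar.ρ τ = ρbar.ρ g := by
    have h := h₂ (g⁻¹ * τ) (fun x hx => hfix x ((le_sup_right : L₂ ≤ L₁ ⊔ L₂) hx))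
    have h' : ρbar.ρ g * ρbar.ρ (g⁻¹ * τ) = ρbar.ρ g := by rw [h, mul_one]
    rw [← map_mul, mul_inv_cancel_left] at h'
    exact h'
  have c1 := h ℓ hℓ hℓS B hB τ hτ
  rw [← e1, ← e2, ← c1]
  have hres : LinearMap.charpoly (ρ.residual.ρ τ)
      = LinearMap.charpoly ((ρ.ρ τ).baseChange (ResidueField A)) := rfl
  rw [hres, LinearMap.charpoly_baseChange, IsLocalRing.ResidueField.algebraMap_eq]

/-- **Burnside/Gram step.**  If `ρ̄` is absolutely irreducible and the characteristic polynomials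
of `ρ.residual` are the images of those of `ρ̄`, then `ρ.residual` is absolutely irreducible. -/
theorem residual_absIrr_of_charpoly {k : Type} [Field k] (ρbar : ResidualGaloisRep k)
    (habs : ρbar.IsAbsolutelyIrreducible)
    {A : Type} [CommRing A] [IsLocalRing A] (ι : k →+* ResidueField A)
    (ρ : GaloisRepAdic A)
    (hcp : ∀ g : AlgebraicClosure ℚ ≃ₐ[ℚ] AlgebraicClosure ℚ,
      LinearMap.charpoly (ρ.residual.ρ g) = (LinearMap.charpoly (ρbar.ρ g)).map ι) :
    ρ.residual.IsAbsolutelyIrreducible := by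
  classical
  let b₁ : Module.Basis (Fin 2) k ρbar.V := Module.finBasisOfFinrankEq k ρbar.V ρbar.finrank_eq
  let b₂ : Module.Basis (Fin 2) (ResidueField A) ρ.residual.V :=
    Module.finBasisOfFinrankEq (ResidueField A) ρ.residual.V ρ.residual.finrank_eq
  obtain ⟨f, hf⟩ := exists_isUnit_coeffMat_of_absIrr ρbar habs b₁
  have htr : ∀ g : AlgebraicClosure ℚ ≃ₐ[ℚ] AlgebraicClosure ℚ,
      LinearMap.trace (ResidueField A) ρ.residual.V (ρ.residual.ρ g)
      = ι (LinearMap.trace k ρbar.V (ρbar.ρ g)) := by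
    intro g
    rw [trace_eq_neg_coeff_charpoly b₂, trace_eq_neg_coeff_charpoly b₁, hcp g,
      Polynomial.coeff_map, map_neg]
  have hgram : gramMat (fun a => LinearMap.toMatrix b₂ b₂ (ρ.residual.ρ (f a)))
      = (gramMat (fun a => LinearMap.toMatrix b₁ b₁ (ρbar.ρ (f a)))).map ι := by
    ext a c
    simp only [gramMat, Matrix.of_apply, Matrix.map_apply]
    rw [← LinearMap.toMatrix_mul, ← LinearMap.toMatrix_mul, ← LinearMap.trace_eq_matrix_trace,
      ← LinearMap.trace_eq_matrix_trace, ← map_mul, ← map_mul, htr]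
  have hP₂ : IsUnit (coeffMat fun a => LinearMap.toMatrix b₂ b₂ (ρ.residual.ρ (f a))).det := by
    rw [isUnit_det_coeffMat_iff, hgram, ← RingHom.mapMatrix_apply, ← RingHom.map_det]
    exact ((isUnit_det_coeffMat_iff _).mp hf).map ι
  intro W hW
  set Ω := AlgebraicClosure (ResidueField A) with hΩ
  let bΩ : Module.Basis (Fin 2) Ω (Ω ⊗[ResidueField A] ρ.residual.V) :=
    Algebra.TensorProduct.basis Ω b₂
  have hmat : ∀ g, LinearMap.toMatrix bΩ bΩ ((ρ.residual.baseChange Ω).ρ g)
      = (LinearMap.toMatrix b₂ b₂ (ρ.residual.ρ g)).map (algebraMap (ResidueField A) Ω) := by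
    intro g
    have h1 : (ρ.residual.baseChange Ω).ρ g = (ρ.residual.ρ g).baseChange Ω := rfl
    rw [h1, LinearMap.toMatrix_baseChange]
  have hPΩ : IsUnit (coeffMat fun a =>
      LinearMap.toMatrix bΩ bΩ ((ρ.residual.baseChange Ω).ρ (f a))).det := by
    have : (coeffMat fun a => LinearMap.toMatrix bΩ bΩ ((ρ.residual.baseChange Ω).ρ (f a)))
        = (coeffMat fun a => LinearMap.toMatrix b₂ b₂ (ρ.residual.ρ (f a))).map
            (algebraMap (ResidueField A) Ω) := by
      rw [← coeffMat_map]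
      congr 1
      funext a
      exact hmat (f a)
    rw [this, ← RingHom.mapMatrix_apply, ← RingHom.map_det]
    exact hP₂.map _
  exact eq_bot_or_eq_top_of_isUnit bΩ (fun g => (ρ.residual.baseChange Ω).ρ g) f hPΩ W hW

/-- **RES, generic form.** -/
theorem residual_absIrr_of_frob {k : Type} [Field k] (ρbar : ResidualGaloisRep k)
    (habs : ρbar.IsAbsolutelyIrreducible)
    {A : Type} [CommRing A] [IsLocalRing A] (ι : k →+* ResidueField A)
    (ρ : GaloisRepAdic A) (S : Finset ℕ)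
    (h : ∀ ℓ : ℕ, ℓ.Prime → ℓ ∉ S →
      ∀ B : ValuationSubring (AlgebraicClosure ℚ), B.LiesOverPrime ℓ →
        ∀ σ : AlgebraicClosure ℚ ≃ₐ[ℚ] AlgebraicClosure ℚ, B.IsFrobeniusAt σ ℓ →
          (LinearMap.charpoly (ρ.ρ σ)).map (residue A)
            = (LinearMap.charpoly (ρbar.ρ σ)).map ι) :
    ρ.residual.IsAbsolutelyIrreducible :=
  residual_absIrr_of_charpoly ρbar habs ι ρ
    (fun g => charpoly_residual_eq_of_frob ρbar ι ρ S h g)

end Fermat.Agent.S58.H273
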