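import Fermat.Agent.S58.H273.AbsIrrOdd
import Fermat.Agent.S58.H273.ResGeneric
import Fermat.Agent.S59.G4.H178.Odd
import Fermat.Agent.S59.G4.H307.Desc
import Fermat.Agent.S59.H127.BridgeE
import Fermat.Agent.Ribet.H52.TraceFormulaW

/-!
# Row S58, leaf HRES (helper273)

`W` an integral Weierstrass curve with `Δ ≠ 0`, `p` an odd prime with `W[p]` irreducible.

* `wRes W hΔ p`               : `W[p]` as a `ResidualGaloisRep (ZMod p)` (Prelude's
                                `residualGaloisRepOf`).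
* `wRes_isOdd`                : `det = -1` at every involution `≠ 1`.
* `wRes_isAbsolutelyIrreducible`.
* `wRes_charpoly_frob`        : `X² - a_ℓ(W) X + ℓ` at the good primes `ℓ ≠ p`.
* `hres`                      : **HRES.**  Every `ρ` over a Noetherian local ring `A` of residue
  characteristic `p` with Frobenius characteristic polynomials `X² - a_ℓ(W) X + ℓ` outside a
  finite set `S` of primes has `ρ.residual` absolutely irreducible and odd.
* `hres_of_hecke`             : the same in the exact shape of the hypothesis `hres` of the frozen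
  S36 (Hecke character `chig` with `chig T_ℓ = a_ℓ(W)`).
-/

set_option autoImplicit false
set_option linter.unusedVariables false
set_option linter.overlappingInstances false

open Polynomial IsLocalRing
open WeierstrassCurve WeierstrassCurve.Affine WeierstrassCurve.Affine.Point
open scoped TensorProduct

namespace Fermat.Agent.S58.H273

/-- `Gal(ℚ̄/ℚ)` -/
abbrev GalQ : Type := AlgebraicClosure ℚ ≃ₐ[ℚ] AlgebraicClosure ℚ

/-- the generic fibre is elliptic -/
theorem isElliptic_map (W : WeierstrassCurve ℤ) (hΔ : W.Δ ≠ 0) :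
    (W.map (Int.castRingHom ℚ)).IsElliptic := by
  have hΔQ : (W.map (Int.castRingHom ℚ)).Δ ≠ 0 := by
    rw [WeierstrassCurve.map_Δ]
    simpa using hΔ
  exact ⟨isUnit_iff_ne_zero.mpr hΔQ⟩

theorem wRes_hcard (W : WeierstrassCurve ℤ) (hΔ : W.Δ ≠ 0) (p : ℕ) :
    Nat.card (Submodule.torsionBy ℤ
      ((W.map (Int.castRingHom ℚ))⁄(AlgebraicClosure ℚ)).Point p) = p ^ 2 := by
  have := isElliptic_map W hΔ
  exact Fermat.Agent.S59.H127.card_torsion_prime (W.map (Int.castRingHom ℚ)) p

theorem wRes_hker (W : WeierstrassCurve ℤ) (hΔ : W.Δ ≠ 0) (p : ℕ) [Fact p.Prime] :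
    GaloisFactorsThroughFiniteLevel
      (WeierstrassCurve.Affine.Point.galoisRepModuleEnd (K := AlgebraicClosure ℚ) ℚ
        (W.map (Int.castRingHom ℚ)) p) := by
  have := isElliptic_map W hΔ
  exact Fermat.Agent.S59.H127.galoisFactorsThroughFiniteLevel_torsion
    (W.map (Int.castRingHom ℚ)) p (Fact.out (p := p.Prime)).one_lt.le

/-- `W[p]` as a residual Galois representation over `𝔽_p`. -/
noncomputable def wRes (W : WeierstrassCurve ℤ) (hΔ : W.Δ ≠ 0) (p : ℕ) [Fact p.Prime] :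
    ResidualGaloisRep (ZMod p) :=
  (W.map (Int.castRingHom ℚ)).residualGaloisRepOf p (wRes_hcard W hΔ p) (wRes_hker W hΔ p)

theorem wRes_ρ (W : WeierstrassCurve ℤ) (hΔ : W.Δ ≠ 0) (p : ℕ) [Fact p.Prime] :
    (wRes W hΔ p).ρ = galoisRepModuleEnd (K := AlgebraicClosure ℚ) ℚ
      (W.map (Int.castRingHom ℚ)) p := rfl

section Curve

variable (W : WeierstrassCurve ℤ) (hΔ : W.Δ ≠ 0) (p : ℕ) [Fact p.Prime]

theorem wRes_isIrreducible (hirr : W.ModRepIsIrreducible p) : (wRes W hΔ p).IsIrreducible := by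
  intro N hN
  exact hirr.2 N (fun σ x hx => hN σ x hx)

/-- the determinant of `W[p]` at an involution `≠ 1` is `-1` -/
theorem wRes_det_involution (hp2 : p ≠ 2) (hirr : W.ModRepIsIrreducible p)
    (c : GalQ) (hc : c * c = 1) (hc1 : c ≠ 1) :
    LinearMap.det ((wRes W hΔ p).ρ c) = -1 := by
  have hp : p.Prime := Fact.out
  have h := Fermat.Agent.Ribet.H403.det_eq_of_apply_root W p hΔ
    (Fermat.Agent.Ribet.H52.exists_nonscalar_of_irreducible_h52 W hΔ p hirr) c (p - 1)
    (fun ζ hζ => by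
      have := Fermat.Agent.S59.G4.H178.involution_apply_root p hp hp2 c hc hc1 1 ζ
        (by rwa [pow_one])
      rwa [pow_one] at this)
  have h' : LinearMap.det ((wRes W hΔ p).ρ c) = ((p - 1 : ℕ) : ZMod p) := h
  rw [h', Nat.cast_sub hp.one_lt.le, ZMod.natCast_self, Nat.cast_one, zero_sub]

theorem wRes_isOdd (hp2 : p ≠ 2) (hirr : W.ModRepIsIrreducible p) : (wRes W hΔ p).IsOdd :=
  fun c hc hc1 => wRes_det_involution W hΔ p hp2 hirr c hc hc1

theorem two_ne_zero_zmod (hp2 : p ≠ 2) : (2 : ZMod p) ≠ 0 := by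
  have hp : p.Prime := Fact.out
  intro h
  have h' : ((2 : ℕ) : ZMod p) = 0 := by exact_mod_cast h
  rw [ZMod.natCast_eq_zero_iff] at h'
  exact hp2 ((Nat.prime_dvd_prime_iff_eq hp Nat.prime_two).mp h')

/-- **`W[p]` is absolutely irreducible** (`p` odd, `W[p]` irreducible). -/
theorem wRes_isAbsolutelyIrreducible (hp2 : p ≠ 2) (hirr : W.ModRepIsIrreducible p) :
    (wRes W hΔ p).IsAbsolutelyIrreducible :=
  absIrr_of_irr_of_involution (two_ne_zero_zmod p hp2) (wRes W hΔ p)
    (wRes_isIrreducible W hΔ p hirr) complexConjugation complexConjugation_mul_self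
    (wRes_det_involution W hΔ p hp2 hirr complexConjugation complexConjugation_mul_self
      Fermat.Agent.S59.G4.H307.complexConjugation_ne_one)

/-- characteristic polynomial of an endomorphism of a plane -/
theorem charpoly_eq_of_finrank_two {k : Type*} [Field k] {V : Type*} [AddCommGroup V]
    [Module k V] [Module.Finite k V] (hV : Module.finrank k V = 2) (f : Module.End k V) :
    LinearMap.charpoly f = X ^ 2 - C (LinearMap.trace k V f) * X + C (LinearMap.det f) := by
  classical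
  let b : Module.Basis (Fin 2) k V := Module.finBasisOfFinrankEq k V hV
  rw [← LinearMap.charpoly_toMatrix f b, Matrix.charpoly_fin_two,
    ← LinearMap.trace_eq_matrix_trace k b f, LinearMap.det_toMatrix b f]

/-- **Frobenius characteristic polynomial of `W[p]`** at a good prime `ℓ ≠ p`. -/
theorem wRes_charpoly_frob (hp2 : p ≠ 2) (hirr : W.ModRepIsIrreducible p)
    (ℓ : ℕ) (hℓ : ℓ.Prime) (hℓp : ℓ ≠ p) (hgood : W.IsGoodPrimeFor ℓ)
    (B : ValuationSubring (AlgebraicClosure ℚ)) (hB : B.LiesOverPrime ℓ)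
    (τ : GalQ) (hτ : B.IsFrobeniusAt τ ℓ) :
    LinearMap.charpoly ((wRes W hΔ p).ρ τ)
      = X ^ 2 - C (((W.apOfModel ℓ : ℤ) : ZMod p)) * X + C ((ℓ : ZMod p)) := by
  have hp : p.Prime := Fact.out
  have htr := Fermat.Agent.Ribet.H52.traceFormulaW_h52 W p hΔ hp hp2 hirr ℓ hℓ hℓp hgood B hB τ hτ
  have hdet := Fermat.Agent.Ribet.H52.detFrobW_h52 W p hΔ hp hirr ℓ hℓ hℓp B hB τ hτ
  have htr' : LinearMap.trace (ZMod p) (wRes W hΔ p).V ((wRes W hΔ p).ρ τ)
      = ((W.apOfModel ℓ : ℤ) : ZMod p) := htr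
  have hdet' : LinearMap.det ((wRes W hΔ p).ρ τ) = (ℓ : ZMod p) := hdet
  rw [charpoly_eq_of_finrank_two (wRes W hΔ p).finrank_eq, htr', hdet']

end Curve

section Main

variable {A : Type} [CommRing A] [IsLocalRing A]

/-- the residue field has characteristic `p` -/
theorem charP_residueField (p : ℕ) [Fact p.Prime] (hpA : (p : A) ∈ maximalIdeal A) :
    CharP (ResidueField A) p := by
  have hp : p.Prime := Fact.out
  have h0 : ((p : ℕ) : ResidueField A) = 0 := by
    have := (IsLocalRing.residue_eq_zero_iff (p : A)).mpr hpA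
    rwa [map_natCast] at this
  have := CharP.ringChar_of_prime_eq_zero hp h0
  rw [← this]
  exact ringChar.charP _

/-- oddness of the reduction from the Frobenius determinants -/
theorem residual_isOdd_of_frob [IsNoetherianRing A] (p : ℕ) [Fact p.Prime] (hp2 : p ≠ 2)
    (hpA : (p : A) ∈ maximalIdeal A) (ρ : GaloisRepAdic A) (S : Finset ℕ)
    (hdet : ∀ ℓ : ℕ, ℓ.Prime → ℓ ∉ S →
      ∀ P : ValuationSubring (AlgebraicClosure ℚ), P.LiesOverPrime ℓ →
        ∀ σ : GalQ, P.IsFrobeniusAt σ ℓ → LinearMap.det (ρ.ρ σ) = (ℓ : A)) :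
    ρ.residual.IsOdd := by
  intro c hc hc1
  have hcyc : ρ.DetIsCyclotomic p :=
    Fermat.Agent.S59.H540.detIsCyclotomic_of_frob ρ p hpA S hdet
  have h1 : LinearMap.det (ρ.ρ c) = -1 :=
    Fermat.Agent.S59.G4.H178.det_involution_eq_neg_one ρ p hp2 hcyc c hc hc1
  have h2 : LinearMap.det (ρ.residual.ρ c)
      = algebraMap A (ResidueField A) (LinearMap.det (ρ.ρ c)) :=
    LinearMap.det_baseChange (ρ.ρ c)
  rw [h2, h1, map_neg, map_one]

/-- **HRES.**  Let `W` be an integral Weierstrass curve with `Δ ≠ 0` and `p` an odd prime with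
`W[p]` irreducible.  Every representation `ρ` over a Noetherian local ring `A` of residue
characteristic `p` whose Frobenius characteristic polynomials are `X² - a_ℓ(W) X + ℓ` at all primes
outside a finite set `S` has absolutely irreducible and odd reduction. -/
theorem hres (W : WeierstrassCurve ℤ) (hΔ : W.Δ ≠ 0) (p : ℕ) [Fact p.Prime] (hp2 : p ≠ 2)
    (hirr : W.ModRepIsIrreducible p) [IsNoetherianRing A]
    (hpA : (p : A) ∈ maximalIdeal A) (ρ : GaloisRepAdic A) (S : Finset ℕ)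
    (hρ : ∀ ℓ : ℕ, ℓ.Prime → ℓ ∉ S →
      ∀ B : ValuationSubring (AlgebraicClosure ℚ), B.LiesOverPrime ℓ →
        ∀ σ : GalQ, B.IsFrobeniusAt σ ℓ →
          LinearMap.charpoly (ρ.ρ σ)
            = X ^ 2 - C (((W.apOfModel ℓ : ℤ) : A)) * X + C ((ℓ : A))) :
    ρ.residual.IsAbsolutelyIrreducible ∧ ρ.residual.IsOdd := by
  classical
  have hp : p.Prime := Fact.out
  refine ⟨?_, ?_⟩
  · have hchar : CharP (ResidueField A) p := charP_residueField p hpA
    let ι : ZMod p →+* ResidueField A := ZMod.castHom (dvd_refl p) (ResidueField A)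
    refine residual_absIrr_of_frob (wRes W hΔ p)
      (wRes_isAbsolutelyIrreducible W hΔ p hp2 hirr) ι ρ
      (S ∪ insert p W.Δ.natAbs.primeFactors) ?_
    intro ℓ hℓ hℓS B hB σ hσ
    have hℓS' : ℓ ∉ S := fun h => hℓS (Finset.mem_union_left _ h)
    have hℓp : ℓ ≠ p := fun h =>
      hℓS (Finset.mem_union_right _ (by rw [h]; exact Finset.mem_insert_self _ _))
    have hgood : W.IsGoodPrimeFor ℓ := by
      intro hdvd
      apply hℓS
      refine Finset.mem_union_right _ (Finset.mem_insert_of_mem ?_)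
      rw [Nat.mem_primeFactors]
      exact ⟨hℓ, Int.natCast_dvd.mp hdvd, by simpa using hΔ⟩
    rw [hρ ℓ hℓ hℓS' B hB σ hσ, wRes_charpoly_frob W hΔ p hp2 hirr ℓ hℓ hℓp hgood B hB σ hσ]
    simp only [Polynomial.map_add, Polynomial.map_sub, Polynomial.map_mul, Polynomial.map_pow,
      Polynomial.map_X, map_natCast, map_intCast, Polynomial.map_intCast,
      Polynomial.map_natCast]
  · refine residual_isOdd_of_frob p hp2 hpA ρ S ?_
    intro ℓ hℓ hℓS P hP σ hσ
    exact Fermat.Agent.S59.H540.det_eq_of_charpoly ρ.finrank_eq _ _ _ (hρ ℓ hℓ hℓS P hP σ hσ)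

end Main

/-- the maximal ideal of a local extension contains `p` -/
theorem natCast_mem_maximalIdeal_of_isLocalHom {O' O'' : Type} [CommRing O'] [IsLocalRing O']
    [CommRing O''] [IsLocalRing O''] [Algebra O' O''] [IsLocalHom (algebraMap O' O'')]
    (p : ℕ) (hpO' : (p : O') ∈ maximalIdeal O') : (p : O'') ∈ maximalIdeal O'' := by
  rw [mem_maximalIdeal, mem_nonunits_iff] at hpO' ⊢
  intro hu
  apply hpO'
  have h : IsUnit (algebraMap O' O'' (p : O')) := by rwa [map_natCast]
  exact isUnit_of_map_unit (algebraMap O' O'') _ h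

/-- **HRES in the shape of the hypothesis `hres` of the frozen S36** (with `lam = p`): if the
Hecke character `chig` has the values `chig T_ℓ = a_ℓ(W)` at the primes `ℓ ∤ M`, `ℓ ∉ S`, then
every `ρ` with the Frobenius characteristic polynomials prescribed by `chig` has absolutely
irreducible and odd reduction. -/
theorem hres_of_hecke (W : WeierstrassCurve ℤ) (hΔ : W.Δ ≠ 0) (p : ℕ) [Fact p.Prime]
    (hp2 : p ≠ 2) (hirr : W.ModRepIsIrreducible p)
    {M : ℕ} [NeZero M] (S : Finset ℕ)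
    (O' : Type) [CommRing O'] [IsDomain O'] [IsDiscreteValuationRing O']
    [IsAdicComplete (IsLocalRing.maximalIdeal O') O'] [Finite (IsLocalRing.ResidueField O')]
    [CharZero O'] (hpO' : (p : O') ∈ IsLocalRing.maximalIdeal O')
    (chig : CuspForm.heckeAlgebra M 2 (↑S : Set ℕ) →+* ℂ)
    (hchigW : ∀ (ℓ : ℕ) (hℓ : ℓ.Prime) (hℓM : ¬ ℓ ∣ M) (hℓS : ℓ ∉ (↑S : Set ℕ)),
      chig (CuspForm.heckeAlgebra.T hℓ hℓM hℓS) = ((W.apOfModel ℓ : ℤ) : ℂ))
    (iota : chig.range →+* O') :
    ∀ (O'' : Type) [CommRing O''] [IsDomain O''] [IsDiscreteValuationRing O'']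
      [IsAdicComplete (IsLocalRing.maximalIdeal O'') O'']
      [Finite (IsLocalRing.ResidueField O'')] [CharZero O'']
      [Algebra O' O''] [Module.Finite O' O''] [IsLocalHom (algebraMap O' O'')],
      Function.Injective (algebraMap O' O'') → ∀ (ρ : GaloisRepAdic O''),
      (∀ (ℓ : ℕ) (hℓ : ℓ.Prime) (hℓlam : ℓ ≠ p) (hℓM : ¬ ℓ ∣ M) (hℓS : ℓ ∉ (↑S : Set ℕ)),
        ∀ A : ValuationSubring (AlgebraicClosure ℚ), A.LiesOverPrime ℓ →
          ∀ σ : AlgebraicClosure ℚ ≃ₐ[ℚ] AlgebraicClosure ℚ, A.IsFrobeniusAt σ ℓ →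
            LinearMap.charpoly (ρ.ρ σ) =
              X ^ 2 - C (algebraMap O' O'' ((iota.comp chig.rangeRestrict)
                (CuspForm.heckeAlgebra.T hℓ hℓM hℓS))) * X + C ((ℓ : O'')))
      → ρ.residual.IsAbsolutelyIrreducible ∧ ρ.residual.IsOdd := by
  intro O'' _ _ _ _ _ _ _ _ _ _ ρ hρ
  classical
  refine hres W hΔ p hp2 hirr (natCast_mem_maximalIdeal_of_isLocalHom p hpO') ρ
    (S ∪ insert p M.primeFactors) ?_
  intro ℓ hℓ hℓS B hB σ hσ
  have hℓS' : ℓ ∉ (↑S : Set ℕ) := fun h => hℓS (Finset.mem_union_left _ (Finset.mem_coe.mp h))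
  have hℓp : ℓ ≠ p := fun h =>
    hℓS (Finset.mem_union_right _ (by rw [h]; exact Finset.mem_insert_self _ _))
  have hℓM : ¬ ℓ ∣ M := fun h =>
    hℓS (Finset.mem_union_right _ (Finset.mem_insert_of_mem
      (Nat.mem_primeFactors.mpr ⟨hℓ, h, NeZero.ne M⟩)))
  rw [hρ ℓ hℓ hℓp hℓM hℓS' B hB σ hσ]
  have hval : (iota.comp chig.rangeRestrict) (CuspForm.heckeAlgebra.T hℓ hℓM hℓS')
      = ((W.apOfModel ℓ : ℤ) : O') := by
    have h1 : chig.rangeRestrict (CuspForm.heckeAlgebra.T hℓ hℓM hℓS')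
        = ((W.apOfModel ℓ : ℤ) : chig.range) := by
      apply Subtype.ext
      rw [RingHom.coe_rangeRestrict, hchigW ℓ hℓ hℓM hℓS']
      simp
    rw [RingHom.comp_apply, h1, map_intCast]
  rw [hval, map_intCast]

end Fermat.Agent.S58.H273
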