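import Mathlib
import Fermat.Prelude.Def_GaloisRep_Residual

/-!
# Row S58, leaf HRES, part 1 (helper273): irreducible + odd ⇒ absolutely irreducible

Pure linear algebra.  Let `V` be a vector space of dimension two over a field `k` with `2 ≠ 0`,
let a monoid `G` act on `V` through `r : G →* End_k(V)` without nontrivial stable `k`-subspace,
and let `c ∈ G` satisfy `r(c)² = 1`, `det r(c) = -1`.  Then for every field extension `K / k`
the module `K ⊗ V` has no nontrivial `G`-stable `K`-subspace
(`eq_bot_or_eq_top_of_involution`).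

Consequence for the Prelude's residual representations: an irreducible `ρ̄` which has determinant
`-1` at some involution is absolutely irreducible (`absIrr_of_irr_of_involution`).
-/

set_option autoImplicit false

open scoped TensorProduct

namespace Fermat.Agent.S58.H273

section LinAlg

variable {k : Type*} [Field k] {V : Type*} [AddCommGroup V] [Module k V]

/-- An involution of determinant `-1` of a plane (`2 ≠ 0`) has an eigenvector for `1` and an
eigenvector for `-1`. -/
theorem exists_eigenvectors_of_involution (h2 : (2 : k) ≠ 0) (hV : Module.finrank k V = 2)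
    (T : Module.End k V) (hT : T * T = 1) (hdet : LinearMap.det T = -1) :
    ∃ v w : V, v ≠ 0 ∧ w ≠ 0 ∧ T v = v ∧ T w = -w := by
  have hTT : ∀ x, T (T x) = x := fun x => by
    have := congrArg (fun f : Module.End k V => f x) hT
    simpa using this
  have hne : (1 : k) ≠ -1 := by
    intro h
    apply h2
    have : (2 : k) = 1 + 1 := by norm_num
    rw [this]
    nth_rewrite 1 [h]
    ring
  -- `T ≠ -1`
  have h1 : ∃ x, T x + x ≠ 0 := by
    by_contra hcon
    have hcon' : ∀ x, T x + x = 0 := fun x => by
      by_contra hx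
      exact hcon ⟨x, hx⟩
    have hTe : T = (-1 : k) • (1 : Module.End k V) := by
      ext x
      have := hcon' x
      rw [neg_smul, one_smul]
      exact eq_neg_of_add_eq_zero_left this
    rw [hTe, LinearMap.det_smul, hV, map_one] at hdet
    apply hne
    rw [← hdet]
    ring
  -- `T ≠ 1`
  have h2' : ∃ y, T y - y ≠ 0 := by
    by_contra hcon
    have hcon' : ∀ x, T x - x = 0 := fun x => by
      by_contra hx
      exact hcon ⟨x, hx⟩
    have hTe : T = 1 := by
      ext x
      have := hcon' x
      rw [Module.End.one_apply]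
      exact sub_eq_zero.mp this
    rw [hTe, map_one] at hdet
    exact hne hdet
  obtain ⟨x, hx⟩ := h1
  obtain ⟨y, hy⟩ := h2'
  refine ⟨T x + x, T y - y, hx, hy, ?_, ?_⟩
  · rw [map_add, hTT, add_comm]
  · rw [map_sub, hTT, neg_sub]

/-- The two eigenvectors form a basis. -/
theorem linearIndependent_eigenvectors (h2 : (2 : k) ≠ 0) (T : Module.End k V) {v w : V}
    (hv : v ≠ 0) (hw : w ≠ 0) (hTv : T v = v) (hTw : T w = -w) :
    LinearIndependent k ![v, w] := by
  rw [LinearIndependent.pair_iff]
  intro s t hst
  have h1 : s • v - t • w = 0 := by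
    have := congrArg T hst
    rw [map_add, map_smul, map_smul, hTv, hTw, map_zero, smul_neg, ← sub_eq_add_neg] at this
    exact this
  have h3 : (2 * s) • v = 0 := by
    have : (2 * s) • v = (s • v + t • w) + (s • v - t • w) := by
      rw [mul_smul, two_smul]; abel
    rw [this, hst, h1, add_zero]
  have hs : s = 0 := by
    rcases smul_eq_zero.mp h3 with h | h
    · rcases mul_eq_zero.mp h with h' | h'
      · exact absurd h' h2
      · exact h'
    · exact absurd h hv
  refine ⟨hs, ?_⟩
  rw [hs, zero_smul, zero_add] at hst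
  rcases smul_eq_zero.mp hst with h | h
  · exact h
  · exact absurd h hw

variable {G : Type*} [Monoid G]

/-- **Irreducible + odd ⇒ absolutely irreducible**, linear algebra form. -/
theorem eq_bot_or_eq_top_of_involution (h2 : (2 : k) ≠ 0) (hV : Module.finrank k V = 2)
    (r : G →* Module.End k V)
    (hirr : ∀ W : Submodule k V, (∀ σ : G, ∀ x ∈ W, r σ x ∈ W) → W = ⊥ ∨ W = ⊤)
    (c : G) (hc : c * c = 1) (hdet : LinearMap.det (r c) = -1)
    (K : Type*) [Field K] [Algebra k K]
    (L : Submodule K (K ⊗[k] V))
    (hL : ∀ σ : G, ∀ x ∈ L, (r σ).baseChange K x ∈ L) :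
    L = ⊥ ∨ L = ⊤ := by
  classical
  have hT : r c * r c = 1 := by rw [← map_mul, hc, map_one]
  obtain ⟨v, w, hv, hw, hTv, hTw⟩ := exists_eigenvectors_of_involution h2 hV (r c) hT hdet
  have hli := linearIndependent_eigenvectors h2 (r c) hv hw hTv hTw
  have hcard : Fintype.card (Fin 2) = Module.finrank k V := by rw [hV]; rfl
  let b : Module.Basis (Fin 2) k V := basisOfLinearIndependentOfCardEqFinrank hli hcard
  have hb0 : b 0 = v := by
    simp [b, coe_basisOfLinearIndependentOfCardEqFinrank]
  have hb1 : b 1 = w := by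
    simp [b, coe_basisOfLinearIndependentOfCardEqFinrank]
  let bK : Module.Basis (Fin 2) K (K ⊗[k] V) := Algebra.TensorProduct.basis K b
  have hbK0 : bK 0 = (1 : K) ⊗ₜ[k] v := by
    rw [← hb0]; exact Algebra.TensorProduct.basis_apply b 0
  have hbK1 : bK 1 = (1 : K) ⊗ₜ[k] w := by
    rw [← hb1]; exact Algebra.TensorProduct.basis_apply b 1
  -- the `k`-subspace of the `x` with `1 ⊗ x ∈ L`
  let L₀ : Submodule k V :=
    { carrier := {x | (1 : K) ⊗ₜ[k] x ∈ L}
      add_mem' := by
        intro x y hx hy
        change (1 : K) ⊗ₜ[k] (x + y) ∈ L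
        rw [TensorProduct.tmul_add]
        exact L.add_mem hx hy
      zero_mem' := by
        change (1 : K) ⊗ₜ[k] (0 : V) ∈ L
        rw [TensorProduct.tmul_zero]
        exact L.zero_mem
      smul_mem' := by
        intro a x hx
        change (1 : K) ⊗ₜ[k] (a • x) ∈ L
        have : (1 : K) ⊗ₜ[k] (a • x) = (algebraMap k K a) • ((1 : K) ⊗ₜ[k] x) := by
          rw [TensorProduct.tmul_smul, TensorProduct.smul_tmul', TensorProduct.smul_tmul',
            Algebra.smul_def, mul_one, smul_eq_mul, mul_one]
        rw [this]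
        exact L.smul_mem _ hx }
  have hL₀mem : ∀ x, x ∈ L₀ ↔ (1 : K) ⊗ₜ[k] x ∈ L := fun x => Iff.rfl
  have hL₀ : ∀ σ : G, ∀ x ∈ L₀, r σ x ∈ L₀ := by
    intro σ x hx
    rw [hL₀mem] at hx ⊢
    have := hL σ _ hx
    rwa [LinearMap.baseChange_tmul] at this
  rcases hirr L₀ hL₀ with hbot | htop
  · -- `L = ⊥`
    left
    rw [eq_bot_iff]
    intro u hu
    rw [Submodule.mem_bot]
    obtain ⟨α, β, hexp⟩ : ∃ α β : K, u = α • bK 0 + β • bK 1 :=
      ⟨bK.repr u 0, bK.repr u 1, by
        rw [← Fin.sum_univ_two (f := fun i => bK.repr u i • bK i)]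
        exact (bK.sum_repr u).symm⟩
    have hTu : (r c).baseChange K u = α • bK 0 - β • bK 1 := by
      rw [hexp, map_add, map_smul, map_smul, hbK0, hbK1, LinearMap.baseChange_tmul,
        LinearMap.baseChange_tmul, hTv, hTw, TensorProduct.tmul_neg, smul_neg, sub_eq_add_neg]
    have hTuL : (r c).baseChange K u ∈ L := hL c u hu
    have h2K : (2 : K) ≠ 0 := by
      have : (2 : K) = algebraMap k K 2 := (map_ofNat (algebraMap k K) 2).symm
      rw [this]
      exact (map_ne_zero (algebraMap k K)).mpr h2
    have hα : α = 0 := by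
      by_contra hα
      have hmem : (2 * α) • bK 0 ∈ L := by
        have : (2 * α) • bK 0 = u + (r c).baseChange K u := by
          rw [hTu, hexp, mul_smul, two_smul]; abel
        rw [this]
        exact L.add_mem hu hTuL
      have hmem' : bK 0 ∈ L := by
        have := L.smul_mem (2 * α)⁻¹ hmem
        rwa [smul_smul, inv_mul_cancel₀ (mul_ne_zero h2K hα), one_smul] at this
      rw [hbK0, ← hL₀mem, hbot, Submodule.mem_bot] at hmem'
      exact hv hmem'
    have hβ : β = 0 := by
      by_contra hβ
      have hmem : (2 * β) • bK 1 ∈ L := by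
        have : (2 * β) • bK 1 = u - (r c).baseChange K u := by
          rw [hTu, hexp, mul_smul, two_smul]; abel
        rw [this]
        exact L.sub_mem hu hTuL
      have hmem' : bK 1 ∈ L := by
        have := L.smul_mem (2 * β)⁻¹ hmem
        rwa [smul_smul, inv_mul_cancel₀ (mul_ne_zero h2K hβ), one_smul] at this
      rw [hbK1, ← hL₀mem, hbot, Submodule.mem_bot] at hmem'
      exact hw hmem'
    rw [hexp, hα, hβ, zero_smul, zero_smul, add_zero]
  · -- `L = ⊤`
    right
    have hall : ∀ u : K ⊗[k] V, u ∈ L := by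
      intro u
      induction u using TensorProduct.induction_on with
      | zero => exact L.zero_mem
      | tmul a x =>
        have hx : (1 : K) ⊗ₜ[k] x ∈ L := by
          rw [← hL₀mem, htop]; trivial
        have : a ⊗ₜ[k] x = a • ((1 : K) ⊗ₜ[k] x) := by
          rw [TensorProduct.smul_tmul', smul_eq_mul, mul_one]
        rw [this]
        exact L.smul_mem _ hx
      | add x y hx hy => exact L.add_mem hx hy
    rw [eq_top_iff]
    intro u _
    exact hall u

end LinAlg

/-- **Irreducible + odd ⇒ absolutely irreducible** for the Prelude's residual representations: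
if `ρ̄` is irreducible, `2 ≠ 0` in `k`, and `det ρ̄(c) = -1` for some involution `c`, then `ρ̄` is
absolutely irreducible. -/
theorem absIrr_of_irr_of_involution {k : Type} [Field k] (h2 : (2 : k) ≠ 0)
    (ρbar : ResidualGaloisRep k) (hirr : ρbar.IsIrreducible)
    (c : AlgebraicClosure ℚ ≃ₐ[ℚ] AlgebraicClosure ℚ) (hc : c * c = 1)
    (hdet : LinearMap.det (ρbar.ρ c) = -1) :
    ρbar.IsAbsolutelyIrreducible := by
  intro L hL
  exact eq_bot_or_eq_top_of_involution h2 ρbar.finrank_eq ρbar.ρ hirr c hc hdet
    (AlgebraicClosure k) L hL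

end Fermat.Agent.S58.H273
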