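import Fermat.Agent.S58.Spec
import Fermat.Agent.S58.H273.Hres

/-!
# Row S58, leaf RES (helper273): `residual : Fermat.Agent.S58.ResidualStatement`

VERBATIM the `Prop` of `Fermat/Agent/S58/Spec.lean`, unconditional.  Proof in `Hres.lean`
(`Fermat.Agent.S58.H273.hres`, any Noetherian local coefficient ring):

* odd: `det ρ(Frob_ℓ) = ℓ` ⇒ `det ρ` cyclotomic (`S59.H540`) ⇒ `det ρ(c) = -1` (`S59.G4.H178`);
* absolutely irreducible: `W[p]` is irreducible and odd, hence absolutely irreducible
  (`AbsIrrOdd.lean`, eigenlines of an involution are rational); its Frobenius characteristic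
  polynomials are `X² - a_ℓ X + ℓ` (`Ribet.H52`); Chebotarev + Burnside/Gram (`ResGeneric.lean`,
  generic form of `S59.G4.H109.resStatement2`) transport absolute irreducibility to `ρ.residual`.
-/

set_option autoImplicit false

namespace Fermat.Agent.S58.H273

/-- **Leaf RES.** -/
theorem residual : Fermat.Agent.S58.ResidualStatement := by
  intro p _ hp2 W hΔ hirr O _ _ _ _ _ _ hpO ρ T hρ
  exact hres W hΔ p hp2 hirr hpO ρ T hρ

end Fermat.Agent.S58.H273
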